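import Mathlib

/-!
# T1A (S19), REDUCTION layer, brick R-c EXT: module lemmas for a prime regular element (helper68)

`R` a commutative ring, `p : R`.  Elementwise statements (no quotient modules):

* `smul_eq_zero_of_projective` : a regular element of `R` acts injectively on a projective module;
* `dvd_or_exists_eq_smul_of_projective` : for `p` prime and `N` projective, `r • x ∈ p N` implies
  `p ∣ r` or `x ∈ p N` (i.e. `N / p N` is torsion-free over the domain `R / p`);
* `Invertible.apply_smul_comm` : rank-one identity `φ x • n = φ n • x` on an invertible module;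
* `Invertible.exists_eq_smul_or_forall_dvd` : for `N` invertible and `p` prime, `p ∣ φ x` implies
  `x ∈ p N` or `φ ∈ p N^∨`;
* `exists_dual_eq_smul` : a linear form with values in `p R` (`p` regular) is `p` times a linear
  form.
-/

set_option autoImplicit false

namespace Fermat.Agent.T1.Red68

open Module

variable {R : Type*} [CommRing R] {N : Type*} [AddCommGroup N] [Module R N]

/-- A regular element acts injectively on a projective module. -/
theorem smul_eq_zero_of_projective [Module.Projective R N] {p : R}
    (hreg : ∀ x : R, p * x = 0 → x = 0) {x : N} (h : p • x = 0) : x = 0 := by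
  obtain ⟨s, hs⟩ := (Module.projective_def' (R := R) (P := N)).1 inferInstance
  have h1 : s x = 0 := by
    ext i
    have : p * (s x) i = 0 := by
      have h2 : s (p • x) = 0 := by rw [h, map_zero]
      rw [map_smul] at h2
      have := DFunLike.congr_fun h2 i
      simpa using this
    simpa using hreg _ this
  have h3 := LinearMap.congr_fun hs x
  simp only [LinearMap.coe_comp, Function.comp_apply, LinearMap.id_coe, id_eq] at h3
  rw [← h3, h1, map_zero]

/-- For `p` prime and `N` projective: if `r • x ∈ p N` then `p ∣ r` or `x ∈ p N`. -/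
theorem dvd_or_exists_eq_smul_of_projective [Module.Projective R N] {p : R} (hp : Prime p)
    {r : R} {x y : N} (h : r • x = p • y) : p ∣ r ∨ ∃ z : N, x = p • z := by
  classical
  by_cases hr : p ∣ r
  · exact Or.inl hr
  right
  obtain ⟨s, hs⟩ := (Module.projective_def' (R := R) (P := N)).1 inferInstance
  have hcoord : ∀ i, p ∣ (s x) i := by
    intro i
    have h2 : s (r • x) = s (p • y) := by rw [h]
    rw [map_smul, map_smul] at h2
    have h3 := DFunLike.congr_fun h2 i
    simp only [Finsupp.smul_apply, smul_eq_mul] at h3
    have : p ∣ r * (s x) i := ⟨_, h3⟩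
    exact (hp.dvd_or_dvd this).resolve_left hr
  choose z hz using hcoord
  refine ⟨∑ i ∈ (s x).support, z i • i, ?_⟩
  have h3 := LinearMap.congr_fun hs x
  simp only [LinearMap.coe_comp, Function.comp_apply, LinearMap.id_coe, id_eq] at h3
  rw [Finsupp.linearCombination_apply, Finsupp.sum] at h3
  calc x = ∑ i ∈ (s x).support, (s x) i • id i := h3.symm
    _ = p • ∑ i ∈ (s x).support, z i • i := by
      rw [Finset.smul_sum]
      refine Finset.sum_congr rfl fun i _ => ?_
      rw [id_eq, smul_smul, ← hz i]

namespace Invertible

variable [Module.Invertible R N]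

/-- The rank-one identity on an invertible module: `φ x • n = φ n • x`. -/
theorem apply_smul_comm (φ : Module.Dual R N) (x n : N) : φ x • n = φ n • x := by
  let Λ : TensorProduct R N N →ₗ[R] N := TensorProduct.lift ((LinearMap.lsmul R N).comp φ)
  have h1 : Λ (TensorProduct.tmul R x n) = φ x • n := by simp [Λ]
  have h2 : Λ (TensorProduct.tmul R n x) = φ n • x := by simp [Λ]
  rw [← h1, ← h2, Module.Invertible.tmul_comm (R := R) (M := N) (m₁ := x) (m₂ := n)]

/-- If `φ x` is a unit then `x` generates `N`. -/
theorem eq_smul_of_isUnit_apply (φ : Module.Dual R N) (x : N) (h : IsUnit (φ x)) (n : N) :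
    n = ((h.unit⁻¹ : Rˣ) : R) • φ n • x := by
  rw [← apply_smul_comm φ x n, smul_smul]
  have : ((h.unit⁻¹ : Rˣ) : R) * φ x = 1 := by
    exact IsUnit.val_inv_mul h
  rw [this, one_smul]

/-- For `N` invertible and `p` prime: `p ∣ φ x` implies `x ∈ p N` or `φ ∈ p N^∨`. -/
theorem exists_eq_smul_or_forall_dvd {p : R} (hp : Prime p) (φ : Module.Dual R N) (x : N)
    (h : p ∣ φ x) : (∃ y : N, x = p • y) ∨ ∀ n, p ∣ φ n := by
  by_cases hx : ∃ y : N, x = p • y
  · exact Or.inl hx
  right
  intro n
  obtain ⟨c, hc⟩ := h
  have h1 : φ n • x = p • (c • n) := by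
    rw [← apply_smul_comm φ x n, hc, mul_smul]
  exact (dvd_or_exists_eq_smul_of_projective hp h1).resolve_right hx

end Invertible

/-- A linear form with values in `p R`, `p` regular, is `p` times a linear form. -/
theorem exists_dual_eq_smul {p : R} (hreg : ∀ x : R, p * x = 0 → x = 0) (φ : Module.Dual R N)
    (h : ∀ n, p ∣ φ n) : ∃ ψ : Module.Dual R N, φ = p • ψ := by
  choose f hf using h
  have hcancel : ∀ a b : R, p * a = p * b → a = b := fun a b hab => by
    have : p * (a - b) = 0 := by rw [mul_sub, hab, sub_self]
    exact sub_eq_zero.1 (hreg _ this)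
  refine ⟨{ toFun := f, map_add' := fun a b => ?_, map_smul' := fun r a => ?_ }, ?_⟩
  · apply hcancel
    rw [mul_add, ← hf, ← hf, ← hf, map_add]
  · apply hcancel
    rw [RingHom.id_apply, smul_eq_mul, mul_left_comm, ← hf, ← hf, map_smul, smul_eq_mul]
  · ext n
    simp only [LinearMap.smul_apply, LinearMap.coe_mk, AddHom.coe_mk, smul_eq_mul]
    exact hf n

end Fermat.Agent.T1.Red68
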