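import Mathlib
import Fermat.Agent.Jac.Core
import Fermat.Agent.Jac.LineOps39.Section
import Fermat.Agent.T1.Red68.PrimeDiv

/-!
# T1A (S19), REDUCTION layer: the ENDGAME lemma for triviality of a line (helper68)

Shared by R-c (`ExtInjective`) and R-e (`CoordInjective`).

* `isoOfBijective` : a morphism of two-chart modules which is bijective on the three opens is an
  isomorphism;
* `nonempty_iso_unit_of_section` : a line `M` with a global section `σ` and linear forms
  `τ0 : N0 → R0`, `τ1 : N1 → R1` (NO compatibility required) such that `τ0 σ0`, `τ1 σ1` are units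
  is trivial: `σ : O → M` is an isomorphism;
* `nonempty_iso_unit_of_hom` : the same with `τ : Hom M O`.
-/

set_option autoImplicit false
set_option linter.unusedSectionVars false

universe u

namespace Fermat.Agent.T1.Red68

open Fermat.Agent.Jac Fermat.Agent.Jac.LineOps39

variable {A R0 R1 R01 : Type u} [CommRing A] [CommRing R0] [CommRing R1] [CommRing R01]
  [Algebra A R0] [Algebra A R1] [Algebra A R01] [Algebra R0 R01] [Algebra R1 R01]
  [IsScalarTower A R0 R01] [IsScalarTower A R1 R01]

/-- A morphism which is bijective on the three opens is an isomorphism. -/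
noncomputable def isoOfBijective {L M : QC2 A R0 R1 R01} (f : QC2.Hom L M)
    (h0 : Function.Bijective f.f0) (h1 : Function.Bijective f.f1)
    (h01 : Function.Bijective f.f01) : QC2.Iso L M where
  e0 := LinearEquiv.ofBijective f.f0 h0
  e1 := LinearEquiv.ofBijective f.f1 h1
  e01 := LinearEquiv.ofBijective f.f01 h01
  comm0 := f.comm0
  comm1 := f.comm1

/-- The overlap module of a line is invertible. -/
theorem invertible_N01 {M : QC2 A R0 R1 R01} (hM : M.IsLine) : Module.Invertible R01 M.N01 :=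
  have := hM.inv0
  Module.Invertible.congr M.bc0.equiv

/-- **Endgame**: a line with a section `σ` and chartwise linear forms `τ0`, `τ1` with
`τ0 σ0`, `τ1 σ1` units is trivial. -/
theorem nonempty_iso_unit_of_section (M : QC2 A R0 R1 R01) (hM : M.IsLine) (σ : M.H0)
    (τ0 : Module.Dual R0 M.N0) (τ1 : Module.Dual R1 M.N1)
    (h0 : IsUnit (τ0 σ.1.1)) (h1 : IsUnit (τ1 σ.1.2)) :
    Nonempty (QC2.Iso (QC2.unit : QC2 A R0 R1 R01) M) := by
  have i0 := hM.inv0
  have i1 := hM.inv1
  have i01 := invertible_N01 hM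
  let f := homOfSection M σ
  have s0 : Function.Surjective f.f0 := fun n =>
    ⟨((h0.unit⁻¹ : R0ˣ) : R0) * τ0 n, by
      show (((h0.unit⁻¹ : R0ˣ) : R0) * τ0 n) • σ.1.1 = n
      rw [mul_smul]
      exact (Invertible.eq_smul_of_isUnit_apply τ0 σ.1.1 h0 n).symm⟩
  have s1 : Function.Surjective f.f1 := fun n =>
    ⟨((h1.unit⁻¹ : R1ˣ) : R1) * τ1 n, by
      show (((h1.unit⁻¹ : R1ˣ) : R1) * τ1 n) • σ.1.2 = n
      rw [mul_smul]
      exact (Invertible.eq_smul_of_isUnit_apply τ1 σ.1.2 h1 n).symm⟩
  have s01 : Function.Surjective f.f01 := by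
    intro y
    induction y using M.bc0.inductionOn with
    | zero => exact ⟨0, map_zero _⟩
    | tmul x =>
      obtain ⟨a, ha⟩ := s0 x
      exact ⟨algebraMap R0 R01 a, by rw [← ha]; exact f.comm0 a⟩
    | smul r y hy =>
      obtain ⟨a, ha⟩ := hy
      exact ⟨r • a, by rw [map_smul, ha]⟩
    | add y₁ y₂ h₁ h₂ =>
      obtain ⟨a, ha⟩ := h₁
      obtain ⟨b, hb⟩ := h₂
      exact ⟨a + b, by rw [map_add, ha, hb]⟩
  have b0 : Function.Bijective f.f0 :=
    Module.Invertible.bijective_of_surjective (R := R0) (M := R0) (N := M.N0) s0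
  have b1 : Function.Bijective f.f1 :=
    Module.Invertible.bijective_of_surjective (R := R1) (M := R1) (N := M.N1) s1
  have b01 : Function.Bijective f.f01 :=
    Module.Invertible.bijective_of_surjective (R := R01) (M := R01) (N := M.N01) s01
  exact ⟨isoOfBijective f b0 b1 b01⟩

/-- **Endgame**, morphism form: `σ : O → M`, `τ : M → O` with `τ ∘ σ` a unit on both charts. -/
theorem nonempty_iso_unit_of_hom (M : QC2 A R0 R1 R01) (hM : M.IsLine)
    (σ : QC2.Hom (QC2.unit : QC2 A R0 R1 R01) M) (τ : QC2.Hom M (QC2.unit : QC2 A R0 R1 R01))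
    (h0 : IsUnit (show R0 from τ.f0 (σ.f0 (1 : R0))))
    (h1 : IsUnit (show R1 from τ.f1 (σ.f1 (1 : R1)))) :
    Nonempty (QC2.Iso (QC2.unit : QC2 A R0 R1 R01) M) :=
  nonempty_iso_unit_of_section M hM (sectionOfHom M σ) τ.f0 τ.f1 h0 h1

end Fermat.Agent.T1.Red68
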