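import Mathlib
import Fermat.Agent.Jac.Core
import Fermat.Agent.Jac.LineOps39.Section
import Fermat.Agent.Jac.LineOps39.Dual
import Fermat.Agent.T1.Red68.PrimeDiv
import Fermat.Agent.T1.Red68.PairTrivial

/-!
# T1A (S19), REDUCTION layer, brick R-c EXT: dividing sections of a line by `π` (helper68)

`c : TwoChart A R0 R1 R01`, `p : A` ("uniformiser").  `PiGood c p` packages the hypotheses on the
special fibre used by `ExtInjective` / `CoordInjective`:
`p` is regular on `R0`, `R1`, `R01`, prime in `R0` and `R1` (special fibre charts are domains) and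
not a unit in `R01` (the special fibre of the overlap is not empty).

* `exists_eq_smul_of_r1`, `exists_eq_smul_of_r0` : for a line `P`, a chart element whose
  restriction to the overlap is divisible by `p` is divisible by `p`;
* `exists_H0_eq_smul_of_fst`, `exists_H0_eq_smul_of_snd` : a global section of a line one of whose
  chart components is divisible by `p` is `p • σ'` for a global section `σ'`.
-/

set_option autoImplicit false
set_option linter.unusedSectionVars false

universe u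

namespace Fermat.Agent.T1.Red68

open Fermat.Agent.Jac Fermat.Agent.Jac.LineOps39

variable {A R0 R1 R01 : Type u} [CommRing A] [CommRing R0] [CommRing R1] [CommRing R01]
  [Algebra A R0] [Algebra A R1] [Algebra A R01] [Algebra R0 R01] [Algebra R1 R01]
  [IsScalarTower A R0 R01] [IsScalarTower A R1 R01]

/-- Hypotheses on the fibre `p = 0` of a two-chart ring. -/
structure PiGood (c : TwoChart A R0 R1 R01) (p : A) : Prop where
  reg0 : ∀ x : R0, algebraMap A R0 p * x = 0 → x = 0
  reg1 : ∀ x : R1, algebraMap A R1 p * x = 0 → x = 0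
  reg01 : ∀ x : R01, algebraMap A R01 p * x = 0 → x = 0
  prime0 : Prime (algebraMap A R0 p)
  prime1 : Prime (algebraMap A R1 p)
  notUnit01 : ¬ IsUnit (algebraMap A R01 p)

namespace PiGood

variable {c : TwoChart A R0 R1 R01} {p : A} (hg : PiGood c p)
include hg

theorem not_dvd_t_pow (k : ℕ) : ¬ algebraMap A R0 p ∣ c.t ^ k := by
  intro h
  have h1 : algebraMap A R0 p ∣ c.t := hg.prime0.dvd_of_dvd_pow h
  have h2 : algebraMap R0 R01 (algebraMap A R0 p) ∣ algebraMap R0 R01 c.t := map_dvd _ h1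
  rw [← IsScalarTower.algebraMap_apply] at h2
  have h3 : IsUnit (algebraMap R0 R01 c.t) := IsUnit.of_mul_eq_one _ c.ts
  exact hg.notUnit01 (isUnit_of_dvd_unit h2 h3)

theorem not_dvd_s_pow (k : ℕ) : ¬ algebraMap A R1 p ∣ c.s ^ k := by
  intro h
  have h1 : algebraMap A R1 p ∣ c.s := hg.prime1.dvd_of_dvd_pow h
  have h2 : algebraMap R1 R01 (algebraMap A R1 p) ∣ algebraMap R1 R01 c.s := map_dvd _ h1
  rw [← IsScalarTower.algebraMap_apply] at h2
  have h3 : IsUnit (algebraMap R1 R01 c.s) :=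
    IsUnit.of_mul_eq_one _ (by rw [mul_comm]; exact c.ts)
  exact hg.notUnit01 (isUnit_of_dvd_unit h2 h3)

/-- `p` acts injectively on the chart-0 module of a line. -/
theorem smul_eq_zero_N0 {P : QC2 A R0 R1 R01} (hP : P.IsLine) {x : P.N0} (h : p • x = 0) :
    x = 0 := by
  have := hP.inv0
  rw [← algebraMap_smul R0 p x] at h
  exact smul_eq_zero_of_projective hg.reg0 h

theorem smul_eq_zero_N1 {P : QC2 A R0 R1 R01} (hP : P.IsLine) {x : P.N1} (h : p • x = 0) :
    x = 0 := by
  have := hP.inv1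
  rw [← algebraMap_smul R1 p x] at h
  exact smul_eq_zero_of_projective hg.reg1 h

theorem smul_eq_zero_N01 {P : QC2 A R0 R1 R01} (hP : P.IsLine) {x : P.N01} (h : p • x = 0) :
    x = 0 := by
  have := invertible_N01 hP
  rw [← algebraMap_smul R01 p x] at h
  exact smul_eq_zero_of_projective hg.reg01 h

/-- A chart-1 element of a line whose restriction to the overlap is divisible by `p` is divisible
by `p`. -/
theorem exists_eq_smul_of_r1 {P : QC2 A R0 R1 R01} (hP : P.IsLine) (x : P.N1) (y : P.N01)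
    (h : P.r1 x = p • y) : ∃ z : P.N1, x = p • z := by
  have i1 := hP.inv1
  have hloc := isLocalizedModule_r1 c P
  obtain ⟨⟨z, ⟨_, k, rfl⟩⟩, hz⟩ := IsLocalizedModule.surj (Submonoid.powers c.s) P.r1 y
  have hz' : (c.s ^ k) • y = P.r1 z := hz
  have h1 : P.r1 ((c.s ^ k) • x) = P.r1 (algebraMap A R1 p • z) := by
    rw [map_smul, map_smul, h, ← hz', algebraMap_smul, smul_comm]
  obtain ⟨⟨_, m, rfl⟩, hm⟩ := (IsLocalizedModule.eq_iff_exists (Submonoid.powers c.s) P.r1).1 h1
  have hm' : (c.s ^ m) • ((c.s ^ k) • x) = (c.s ^ m) • (algebraMap A R1 p • z) := hm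
  have h2 : (c.s ^ (m + k)) • x = algebraMap A R1 p • ((c.s ^ m) • z) := by
    rw [pow_add, mul_smul, hm', smul_comm]
  rcases dvd_or_exists_eq_smul_of_projective hg.prime1 h2 with hd | ⟨z', hz'⟩
  · exact (hg.not_dvd_s_pow _ hd).elim
  · exact ⟨z', by rw [hz', algebraMap_smul]⟩

/-- A chart-0 element of a line whose restriction to the overlap is divisible by `p` is divisible
by `p`. -/
theorem exists_eq_smul_of_r0 {P : QC2 A R0 R1 R01} (hP : P.IsLine) (x : P.N0) (y : P.N01)
    (h : P.r0 x = p • y) : ∃ z : P.N0, x = p • z := by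
  have i0 := hP.inv0
  have hloc := isLocalizedModule_r0 c P
  obtain ⟨⟨z, ⟨_, k, rfl⟩⟩, hz⟩ := IsLocalizedModule.surj (Submonoid.powers c.t) P.r0 y
  have hz' : (c.t ^ k) • y = P.r0 z := hz
  have h1 : P.r0 ((c.t ^ k) • x) = P.r0 (algebraMap A R0 p • z) := by
    rw [map_smul, map_smul, h, ← hz', algebraMap_smul, smul_comm]
  obtain ⟨⟨_, m, rfl⟩, hm⟩ := (IsLocalizedModule.eq_iff_exists (Submonoid.powers c.t) P.r0).1 h1
  have hm' : (c.t ^ m) • ((c.t ^ k) • x) = (c.t ^ m) • (algebraMap A R0 p • z) := hm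
  have h2 : (c.t ^ (m + k)) • x = algebraMap A R0 p • ((c.t ^ m) • z) := by
    rw [pow_add, mul_smul, hm', smul_comm]
  rcases dvd_or_exists_eq_smul_of_projective hg.prime0 h2 with hd | ⟨z', hz'⟩
  · exact (hg.not_dvd_t_pow _ hd).elim
  · exact ⟨z', by rw [hz', algebraMap_smul]⟩

/-- Two chart elements `y0`, `y1` of a line with `p • y0`, `p • y1` compatible are compatible. -/
theorem compat_of_smul {P : QC2 A R0 R1 R01} (hP : P.IsLine) (y0 : P.N0) (y1 : P.N1)
    (h : P.r0 (p • y0) = P.r1 (p • y1)) : P.r0 y0 = P.r1 y1 := by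
  have e0 : P.r0 (p • y0) = p • P.r0 y0 := by
    rw [← algebraMap_smul R0 p y0, map_smul, algebraMap_smul]
  have e1 : P.r1 (p • y1) = p • P.r1 y1 := by
    rw [← algebraMap_smul R1 p y1, map_smul, algebraMap_smul]
  rw [e0, e1] at h
  have : p • (P.r0 y0 - P.r1 y1) = 0 := by rw [smul_sub, h, sub_self]
  exact sub_eq_zero.1 (hg.smul_eq_zero_N01 hP this)

/-- A global section of a line whose chart-0 component is divisible by `p` is `p • σ'`. -/
theorem exists_H0_eq_smul_of_fst {P : QC2 A R0 R1 R01} (hP : P.IsLine) (σ : P.H0)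
    (h : ∃ y0 : P.N0, σ.1.1 = p • y0) : ∃ σ' : P.H0, σ = p • σ' := by
  obtain ⟨y0, hy0⟩ := h
  have hc := H0_compat P σ
  have e0 : P.r0 (p • y0) = p • P.r0 y0 := by
    rw [← algebraMap_smul R0 p y0, map_smul, algebraMap_smul]
  obtain ⟨y1, hy1⟩ := hg.exists_eq_smul_of_r1 hP σ.1.2 (P.r0 y0) (by rw [← hc, hy0, e0])
  have hcompat : P.r0 y0 = P.r1 y1 := hg.compat_of_smul hP y0 y1 (by rw [← hy0, ← hy1, hc])
  refine ⟨⟨(y0, y1), (mem_H0_iff P _).2 hcompat⟩, ?_⟩
  apply Subtype.ext
  apply Prod.ext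
  · exact hy0
  · exact hy1

/-- A global section of a line whose chart-1 component is divisible by `p` is `p • σ'`. -/
theorem exists_H0_eq_smul_of_snd {P : QC2 A R0 R1 R01} (hP : P.IsLine) (σ : P.H0)
    (h : ∃ y1 : P.N1, σ.1.2 = p • y1) : ∃ σ' : P.H0, σ = p • σ' := by
  obtain ⟨y1, hy1⟩ := h
  have hc := H0_compat P σ
  have e1 : P.r1 (p • y1) = p • P.r1 y1 := by
    rw [← algebraMap_smul R1 p y1, map_smul, algebraMap_smul]
  obtain ⟨y0, hy0⟩ := hg.exists_eq_smul_of_r0 hP σ.1.1 (P.r1 y1) (by rw [hc, hy1, e1])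
  exact hg.exists_H0_eq_smul_of_fst hP σ ⟨y0, hy0⟩

end PiGood

end Fermat.Agent.T1.Red68
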