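import Mathlib
import Fermat.Agent.Jac.Core
import Fermat.Agent.Jac.LineOps39.Section
import Fermat.Agent.Jac.LineOps39.Dual
import Fermat.Agent.T1.Red68.PrimeDiv
import Fermat.Agent.T1.Red68.PairTrivial
import Fermat.Agent.T1.Red68.SectionDiv

/-!
# T1A (S19), REDUCTION layer, brick R-c EXT: the descent on the pairing (helper68)

`O` a discrete valuation ring with uniformiser `π`, `c : TwoChart O R0 R1 R01` with `PiGood c π`
and `H⁰(O_X) = O` (`H0Const c`).  For a line `M`:

* `pair0 σ τ`, `pair1 σ τ` : the chartwise pairings of `σ ∈ H⁰(M)` and `τ ∈ H⁰(M^∨)`;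
* `exists_pairing_eq_one` : if `pair0 σ τ ≠ 0` then there are `σ'`, `τ'` with both pairings `1`
  (divide by `π` as long as possible: the special fibre is integral);
* `nonempty_iso_unit_of_pairing_ne_zero` : hence `M` is trivial.
-/

set_option autoImplicit false
set_option linter.unusedSectionVars false

universe u

namespace Fermat.Agent.T1.Red68

open Fermat.Agent.Jac Fermat.Agent.Jac.LineOps39

variable {A R0 R1 R01 : Type u} [CommRing A] [CommRing R0] [CommRing R1] [CommRing R01]
  [Algebra A R0] [Algebra A R1] [Algebra A R01] [Algebra R0 R01] [Algebra R1 R01]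
  [IsScalarTower A R0 R01] [IsScalarTower A R1 R01]

/-- `H⁰(O_X) = A`: compatible pairs of chart functions are constants. -/
def H0Const (_c : TwoChart A R0 R1 R01) : Prop :=
  ∀ (x0 : R0) (x1 : R1), algebraMap R0 R01 x0 = algebraMap R1 R01 x1 →
    ∃ a : A, algebraMap A R0 a = x0 ∧ algebraMap A R1 a = x1

section Pairing

variable (c : TwoChart A R0 R1 R01) {M : QC2 A R0 R1 R01} (hM : M.IsLine)

/-- The chart-0 pairing of a section of `M` and a section of `M^∨`. -/
def pair0 (σ : M.H0) (τ : (dual c M (isVB_of_isLine hM)).H0) : R0 :=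
  (show Module.Dual R0 M.N0 from τ.1.1) σ.1.1

/-- The chart-1 pairing of a section of `M` and a section of `M^∨`. -/
def pair1 (σ : M.H0) (τ : (dual c M (isVB_of_isLine hM)).H0) : R1 :=
  (show Module.Dual R1 M.N1 from τ.1.2) σ.1.2

theorem pair_compat (σ : M.H0) (τ : (dual c M (isVB_of_isLine hM)).H0) :
    algebraMap R0 R01 (pair0 c hM σ τ) = algebraMap R1 R01 (pair1 c hM σ τ) := by
  have h1 := dual_r0_apply c M (isVB_of_isLine hM) τ.1.1 σ.1.1
  have h2 := dual_r1_apply c M (isVB_of_isLine hM) τ.1.2 σ.1.2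
  have hτ := H0_compat (dual c M (isVB_of_isLine hM)) τ
  have hσ := H0_compat M σ
  unfold pair0 pair1
  rw [← h1, ← h2, hτ, hσ]

theorem pair0_smul_left (a : A) (σ : M.H0) (τ : (dual c M (isVB_of_isLine hM)).H0) :
    pair0 c hM (a • σ) τ = algebraMap A R0 a * pair0 c hM σ τ := by
  unfold pair0
  show (show Module.Dual R0 M.N0 from τ.1.1) (a • σ.1.1) = _
  rw [← algebraMap_smul R0 a σ.1.1, map_smul, smul_eq_mul]

theorem pair1_smul_left (a : A) (σ : M.H0) (τ : (dual c M (isVB_of_isLine hM)).H0) :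
    pair1 c hM (a • σ) τ = algebraMap A R1 a * pair1 c hM σ τ := by
  unfold pair1
  show (show Module.Dual R1 M.N1 from τ.1.2) (a • σ.1.2) = _
  rw [← algebraMap_smul R1 a σ.1.2, map_smul, smul_eq_mul]

theorem pair0_smul_right (a : A) (σ : M.H0) (τ : (dual c M (isVB_of_isLine hM)).H0) :
    pair0 c hM σ (a • τ) = algebraMap A R0 a * pair0 c hM σ τ := by
  unfold pair0
  show (a • (show Module.Dual R0 M.N0 from τ.1.1)) σ.1.1 = _
  rw [LinearMap.smul_apply, Algebra.smul_def]

theorem pair1_smul_right (a : A) (σ : M.H0) (τ : (dual c M (isVB_of_isLine hM)).H0) :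
    pair1 c hM σ (a • τ) = algebraMap A R1 a * pair1 c hM σ τ := by
  unfold pair1
  show (a • (show Module.Dual R1 M.N1 from τ.1.2)) σ.1.2 = _
  rw [LinearMap.smul_apply, Algebra.smul_def]

end Pairing

section Descent

variable {c : TwoChart A R0 R1 R01} {p : A} (hg : PiGood c p)
  {M : QC2 A R0 R1 R01} (hM : M.IsLine)
include hg

/-- The descent step: a pairing equal to `p ^ n` can be improved to a pairing equal to `1`. -/
theorem exists_pairing_eq_one_of_pow (n : ℕ) :
    ∀ (σ : M.H0) (τ : (dual c M (isVB_of_isLine hM)).H0),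
      pair0 c hM σ τ = algebraMap A R0 (p ^ n) → pair1 c hM σ τ = algebraMap A R1 (p ^ n) →
      ∃ (σ' : M.H0) (τ' : (dual c M (isVB_of_isLine hM)).H0),
        pair0 c hM σ' τ' = 1 ∧ pair1 c hM σ' τ' = 1 := by
  have i0 := hM.inv0
  have i1 := hM.inv1
  induction n with
  | zero =>
    intro σ τ h0 h1
    exact ⟨σ, τ, by rw [h0, pow_zero, map_one], by rw [h1, pow_zero, map_one]⟩
  | succ n ih =>
    intro σ τ h0 h1
    have hcancel0 : ∀ a b : R0, algebraMap A R0 p * a = algebraMap A R0 p * b → a = b :=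
      fun a b hab => by
        have : algebraMap A R0 p * (a - b) = 0 := by rw [mul_sub, hab, sub_self]
        exact sub_eq_zero.1 (hg.reg0 _ this)
    have hcancel1 : ∀ a b : R1, algebraMap A R1 p * a = algebraMap A R1 p * b → a = b :=
      fun a b hab => by
        have : algebraMap A R1 p * (a - b) = 0 := by rw [mul_sub, hab, sub_self]
        exact sub_eq_zero.1 (hg.reg1 _ this)
    have hd : algebraMap A R0 p ∣ (show Module.Dual R0 M.N0 from τ.1.1) σ.1.1 :=
      ⟨algebraMap A R0 (p ^ n), by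
        have := h0
        unfold pair0 at this
        rw [this, pow_succ', map_mul]⟩
    rcases Invertible.exists_eq_smul_or_forall_dvd hg.prime0
        (show Module.Dual R0 M.N0 from τ.1.1) σ.1.1 hd with ⟨y, hy⟩ | hall
    · -- `σ` is divisible by `p`
      obtain ⟨σ', rfl⟩ := hg.exists_H0_eq_smul_of_fst hM σ
        ⟨y, by rw [hy, algebraMap_smul]⟩
      rw [pair0_smul_left, pow_succ', map_mul] at h0
      rw [pair1_smul_left, pow_succ', map_mul] at h1
      exact ih σ' τ (hcancel0 _ _ h0) (hcancel1 _ _ h1)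
    · -- `τ` is divisible by `p`
      obtain ⟨ψ, hψ⟩ := exists_dual_eq_smul hg.reg0 (show Module.Dual R0 M.N0 from τ.1.1) hall
      obtain ⟨τ', rfl⟩ := hg.exists_H0_eq_smul_of_fst (isLine_dual c hM) τ
        ⟨ψ, by
          show (show Module.Dual R0 M.N0 from τ.1.1) = p • ψ
          rw [hψ, algebraMap_smul]⟩
      rw [pair0_smul_right, pow_succ', map_mul] at h0
      rw [pair1_smul_right, pow_succ', map_mul] at h1
      exact ih σ τ' (hcancel0 _ _ h0) (hcancel1 _ _ h1)

end Descent

section DVR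

variable {O R0 R1 R01 : Type u} [CommRing O] [IsDomain O] [IsDiscreteValuationRing O]
  [CommRing R0] [CommRing R1] [CommRing R01]
  [Algebra O R0] [Algebra O R1] [Algebra O R01] [Algebra R0 R01] [Algebra R1 R01]
  [IsScalarTower O R0 R01] [IsScalarTower O R1 R01]
  {c : TwoChart O R0 R1 R01} {π : O}

/-- **Descent**: over a DVR, a nonzero pairing can be improved to a pairing equal to `1`. -/
theorem exists_pairing_eq_one (hπ : Irreducible π) (hg : PiGood c π) (hH0 : H0Const c)
    {M : QC2 O R0 R1 R01} (hM : M.IsLine) (σ : M.H0) (τ : (dual c M (isVB_of_isLine hM)).H0)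
    (hne : pair0 c hM σ τ ≠ 0) :
    ∃ (σ' : M.H0) (τ' : (dual c M (isVB_of_isLine hM)).H0),
      pair0 c hM σ' τ' = 1 ∧ pair1 c hM σ' τ' = 1 := by
  obtain ⟨a, ha0, ha1⟩ := hH0 _ _ (pair_compat c hM σ τ)
  have ha : a ≠ 0 := by
    rintro rfl
    rw [map_zero] at ha0
    exact hne ha0.symm
  obtain ⟨n, u, hu⟩ := IsDiscreteValuationRing.eq_unit_mul_pow_irreducible ha hπ
  refine exists_pairing_eq_one_of_pow hg hM n (((u⁻¹ : Oˣ) : O) • σ) τ ?_ ?_
  · rw [pair0_smul_left, ← ha0, ← map_mul, hu, ← mul_assoc, Units.inv_mul, one_mul]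
  · rw [pair1_smul_left, ← ha1, ← map_mul, hu, ← mul_assoc, Units.inv_mul, one_mul]

/-- Over a DVR with good special fibre, a line `M` with sections `σ ∈ H⁰(M)`, `τ ∈ H⁰(M^∨)` of
nonzero pairing is trivial. -/
theorem nonempty_iso_unit_of_pairing_ne_zero (hπ : Irreducible π) (hg : PiGood c π)
    (hH0 : H0Const c) {M : QC2 O R0 R1 R01} (hM : M.IsLine) (σ : M.H0)
    (τ : (dual c M (isVB_of_isLine hM)).H0) (hne : pair0 c hM σ τ ≠ 0) :
    Nonempty (QC2.Iso (QC2.unit : QC2 O R0 R1 R01) M) := by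
  obtain ⟨σ', τ', h0, h1⟩ := exists_pairing_eq_one hπ hg hH0 hM σ τ hne
  refine nonempty_iso_unit_of_section M hM σ' (show Module.Dual R0 M.N0 from τ'.1.1)
    (show Module.Dual R1 M.N1 from τ'.1.2) ?_ ?_
  · have : (show Module.Dual R0 M.N0 from τ'.1.1) σ'.1.1 = 1 := h0
    rw [this]; exact isUnit_one
  · have : (show Module.Dual R1 M.N1 from τ'.1.2) σ'.1.2 = 1 := h1
    rw [this]; exact isUnit_one

end DVR

end Fermat.Agent.T1.Red68
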