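import Mathlib
import Fermat.Agent.Jac.Core
import Fermat.Agent.Jac.JSmooth85Alg
import Fermat.Agent.Jac.BaseChange75.Square
import Fermat.Agent.Jac.LineOps39.Section
import Fermat.Agent.Jac.LineOps39.Dual
import Fermat.Agent.T1.Red68.Descent

/-!
# T1A (S19), REDUCTION layer, brick R-c EXT: a line with trivial generic fibre (helper68)

`O` a DVR, `(R0, R1, R01)` a two-chart ring over `O`, `(R0', R1', R01')` its generic fibre
(localisations at the nonzero elements of `O`).  A line `M` whose chartwise base change to the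
generic fibre is trivial (`LiftData M unit`) has sections `σ ∈ H⁰(M)`, `τ ∈ H⁰(M^∨)` with nonzero
pairing; with `Descent` this gives `M ≅ O_X` (`nonempty_iso_unit_of_liftData_unit`).
-/

set_option autoImplicit false
set_option linter.unusedSectionVars false

universe u

open TensorProduct

namespace Fermat.Agent.T1.Red68

open Fermat.Agent.Jac Fermat.Agent.Jac.LineOps39 Fermat.Agent.Jac.JSmooth85Alg
open Fermat.Agent.Jac.BaseChange75

section Scalar

variable {O : Type*} [CommRing O] [IsDomain O] [IsDiscreteValuationRing O] {π : O}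

/-- If the uniformiser acts injectively on a module over a DVR, so does every nonzero scalar. -/
theorem smul_eq_zero_of_ne_zero (hπ : Irreducible π) {N : Type*} [AddCommGroup N] [Module O N]
    (hreg : ∀ x : N, π • x = 0 → x = 0) {b : O} (hb : b ≠ 0) {x : N} (h : b • x = 0) :
    x = 0 := by
  obtain ⟨n, u, rfl⟩ := IsDiscreteValuationRing.eq_unit_mul_pow_irreducible hb hπ
  have h1 : π ^ n • x = 0 := by
    have := congrArg (fun y => ((u⁻¹ : Oˣ) : O) • y) h
    simp only [smul_zero] at this
    rwa [smul_smul, ← mul_assoc, Units.inv_mul, one_mul] at this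
  clear h hb
  induction n with
  | zero => simpa using h1
  | succ n ih =>
    apply ih
    apply hreg
    rw [smul_smul, ← pow_succ']
    exact h1

end Scalar

section Generic

variable {O R0 R1 R01 K R0' R1' R01' : Type u}
  [CommRing O] [IsDomain O] [IsDiscreteValuationRing O]
  [CommRing R0] [CommRing R1] [CommRing R01]
  [Algebra O R0] [Algebra O R1] [Algebra O R01] [Algebra R0 R01] [Algebra R1 R01]
  [IsScalarTower O R0 R01] [IsScalarTower O R1 R01]
  [CommRing K] [CommRing R0'] [CommRing R1'] [CommRing R01']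
  [Algebra K R0'] [Algebra K R1'] [Algebra K R01'] [Algebra R0' R01'] [Algebra R1' R01']
  [IsScalarTower K R0' R01'] [IsScalarTower K R1' R01']
  [Algebra R0 R0'] [Algebra R1 R1'] [Algebra R01 R01']

variable {M : QC2 O R0 R1 R01} (h : LiftData M (QC2.unit : QC2 K R0' R1' R01'))

/-- The `R0`-linear map `N0 → R0'` underlying a trivialisation of the generic fibre. -/
noncomputable def jLin0 : M.N0 →ₗ[R0] R0' where
  toFun n := LiftData.toAdd0 h n
  map_add' := map_add (LiftData.toAdd0 h)
  map_smul' r n := by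
    show LiftData.toAdd0 h (r • n) = r • (show R0' from LiftData.toAdd0 h n)
    rw [LiftData.toAdd0_smul h, Algebra.smul_def]
    rfl

/-- The `R1`-linear map `N1 → R1'` underlying a trivialisation of the generic fibre. -/
noncomputable def jLin1 : M.N1 →ₗ[R1] R1' where
  toFun n := LiftData.toAdd1 h n
  map_add' := map_add (LiftData.toAdd1 h)
  map_smul' r n := by
    show LiftData.toAdd1 h (r • n) = r • (show R1' from LiftData.toAdd1 h n)
    rw [LiftData.toAdd1_smul h, Algebra.smul_def]
    rfl

/-- The `R01`-linear map `N01 → R01'` underlying a trivialisation of the generic fibre. -/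
noncomputable def jLin01 : M.N01 →ₗ[R01] R01' where
  toFun n := LiftData.toAdd01 h n
  map_add' := map_add (LiftData.toAdd01 h)
  map_smul' r n := by
    show LiftData.toAdd01 h (r • n) = r • (show R01' from LiftData.toAdd01 h n)
    rw [LiftData.toAdd01_smul h, Algebra.smul_def]
    rfl

theorem jLin01_r0 (n : M.N0) : jLin01 h (M.r0 n) = algebraMap R0' R01' (jLin0 h n) :=
  LiftData.toAdd01_r0 h n

theorem jLin01_r1 (n : M.N1) : jLin01 h (M.r1 n) = algebraMap R1' R01' (jLin1 h n) :=
  LiftData.toAdd01_r1 h n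

theorem jLin0_isBaseChange : IsBaseChange R0' (jLin0 h) :=
  IsBaseChange.of_equiv h.e0 (fun _ => rfl)

theorem jLin1_isBaseChange : IsBaseChange R1' (jLin1 h) :=
  IsBaseChange.of_equiv h.e1 (fun _ => rfl)

theorem jLin01_isBaseChange : IsBaseChange R01' (jLin01 h) :=
  IsBaseChange.of_equiv h.e01 (fun _ => rfl)


/-! ### Injectivity facts -/

section Inj

variable {c : TwoChart O R0 R1 R01} {π : O}

/-- Nonzero elements of `O` are nonzerodivisors in an `O`-algebra on which `π` is regular. -/
theorem algebraMapSubmonoid_le_nonZeroDivisors (hπ : Irreducible π) {R : Type*} [CommRing R]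
    [Algebra O R] (hreg : ∀ x : R, algebraMap O R π * x = 0 → x = 0) :
    Algebra.algebraMapSubmonoid R (nonZeroDivisors O) ≤ nonZeroDivisors R := by
  rintro _ ⟨b, hb, rfl⟩
  rw [mem_nonZeroDivisors_iff_right]
  intro x hx
  have hb' : b ≠ 0 := nonZeroDivisors.ne_zero hb
  refine smul_eq_zero_of_ne_zero hπ (N := R) (fun y hy => hreg y ?_) hb' ?_
  · rw [← Algebra.smul_def]; exact hy
  · rw [Algebra.smul_def, mul_comm]; exact hx

/-- `O → R0` is injective. -/
theorem algebraMap_O_R0_eq_zero (hπ : Irreducible π) (hg : PiGood c π) {d : O}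
    (hd : algebraMap O R0 d = 0) : d = 0 := by
  by_contra hne
  have h1 : (1 : R0) = 0 := by
    refine smul_eq_zero_of_ne_zero hπ (N := R0) (fun y hy => hg.reg0 y ?_) hne ?_
    · rw [← Algebra.smul_def]; exact hy
    · rw [Algebra.smul_def, hd, zero_mul]
  apply hg.prime0.ne_zero
  rw [← mul_one (algebraMap O R0 π), h1, mul_zero]

end Inj

/-! ### The section and the cosection -/

section Main

variable {c : TwoChart O R0 R1 R01} {π : O}
variable
  (hc0 : (algebraMap R0' R01').comp (algebraMap R0 R0') =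
    (algebraMap R01 R01').comp (algebraMap R0 R01))
  (hc1 : (algebraMap R1' R01').comp (algebraMap R1 R1') =
    (algebraMap R01 R01').comp (algebraMap R1 R01))
  (hl0 : IsLocalization (Algebra.algebraMapSubmonoid R0 (nonZeroDivisors O)) R0')
  (hl1 : IsLocalization (Algebra.algebraMapSubmonoid R1 (nonZeroDivisors O)) R1')
  (hl01 : IsLocalization (Algebra.algebraMapSubmonoid R01 (nonZeroDivisors O)) R01')

include hl0 in
theorem exists_jLin0_eq (y : R0') : ∃ (x : M.N0) (a : O), a ≠ 0 ∧
    jLin0 h x = algebraMap R0 R0' (algebraMap O R0 a) * y := by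
  have : IsLocalizedModule (Algebra.algebraMapSubmonoid R0 (nonZeroDivisors O)) (jLin0 h) :=
    (isLocalizedModule_iff_isBaseChange _ R0' _).mpr (jLin0_isBaseChange h)
  obtain ⟨⟨x, ⟨_, a, ha, rfl⟩⟩, hx⟩ :=
    IsLocalizedModule.surj (Algebra.algebraMapSubmonoid R0 (nonZeroDivisors O)) (jLin0 h) y
  refine ⟨x, a, nonZeroDivisors.ne_zero ha, ?_⟩
  have hx' : (algebraMap O R0 a) • y = jLin0 h x := hx
  rw [← hx', Algebra.smul_def]

include hl1 in
theorem exists_jLin1_eq (y : R1') : ∃ (x : M.N1) (a : O), a ≠ 0 ∧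
    jLin1 h x = algebraMap R1 R1' (algebraMap O R1 a) * y := by
  have : IsLocalizedModule (Algebra.algebraMapSubmonoid R1 (nonZeroDivisors O)) (jLin1 h) :=
    (isLocalizedModule_iff_isBaseChange _ R1' _).mpr (jLin1_isBaseChange h)
  obtain ⟨⟨x, ⟨_, a, ha, rfl⟩⟩, hx⟩ :=
    IsLocalizedModule.surj (Algebra.algebraMapSubmonoid R1 (nonZeroDivisors O)) (jLin1 h) y
  refine ⟨x, a, nonZeroDivisors.ne_zero ha, ?_⟩
  have hx' : (algebraMap O R1 a) • y = jLin1 h x := hx
  rw [← hx', Algebra.smul_def]

include hl01 in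
/-- `jLin01` is injective on a line. -/
theorem jLin01_eq_zero (hπ : Irreducible π) (hg : PiGood c π) (hM : M.IsLine) {y : M.N01}
    (hy : jLin01 h y = 0) : y = 0 := by
  have : IsLocalizedModule (Algebra.algebraMapSubmonoid R01 (nonZeroDivisors O)) (jLin01 h) :=
    (isLocalizedModule_iff_isBaseChange _ R01' _).mpr (jLin01_isBaseChange h)
  obtain ⟨⟨_, b, hb, rfl⟩, hs⟩ := (IsLocalizedModule.eq_zero_iff
    (Algebra.algebraMapSubmonoid R01 (nonZeroDivisors O)) (jLin01 h)).1 hy
  have hs' : (algebraMap O R01 b) • y = 0 := hs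
  rw [algebraMap_smul] at hs'
  exact smul_eq_zero_of_ne_zero hπ (fun x hx => hg.smul_eq_zero_N01 hM hx)
    (nonZeroDivisors.ne_zero hb) hs'

include hc0 hc1 hl0 hl1 hl01 in
/-- A global section of `M` mapping to a nonzero constant in the trivialisation. -/
theorem exists_section (hπ : Irreducible π) (hg : PiGood c π) (hM : M.IsLine) :
    ∃ (σ : M.H0) (a : O), a ≠ 0 ∧
      jLin0 h σ.1.1 = algebraMap R0 R0' (algebraMap O R0 a) := by
  obtain ⟨x0, a0, ha0, hx0⟩ := exists_jLin0_eq h hl0 (1 : R0')
  obtain ⟨x1, a1, ha1, hx1⟩ := exists_jLin1_eq h hl1 (1 : R1')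
  rw [mul_one] at hx0 hx1
  have e0 : jLin0 h (algebraMap O R0 a1 • x0) = algebraMap R0 R0' (algebraMap O R0 (a1 * a0)) := by
    rw [map_smul, hx0, Algebra.smul_def, ← map_mul, ← map_mul]
  have e1 : jLin1 h (algebraMap O R1 a0 • x1) = algebraMap R1 R1' (algebraMap O R1 (a1 * a0)) := by
    rw [map_smul, hx1, Algebra.smul_def, ← map_mul, ← map_mul, mul_comm]
  have hcompat : M.r0 (algebraMap O R0 a1 • x0) = M.r1 (algebraMap O R1 a0 • x1) := by
    rw [← sub_eq_zero]
    apply jLin01_eq_zero h hl01 hπ hg hM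
    rw [map_sub, jLin01_r0, jLin01_r1, e0, e1, sub_eq_zero]
    have h0 := RingHom.congr_fun hc0 (algebraMap O R0 (a1 * a0))
    have h1 := RingHom.congr_fun hc1 (algebraMap O R1 (a1 * a0))
    simp only [RingHom.comp_apply] at h0 h1
    rw [h0, h1, ← IsScalarTower.algebraMap_apply O R0 R01,
      ← IsScalarTower.algebraMap_apply O R1 R01]
  exact ⟨⟨(algebraMap O R0 a1 • x0, algebraMap O R1 a0 • x1), (mem_H0_iff M _).2 hcompat⟩,
    a1 * a0, mul_ne_zero ha1 ha0, e0⟩


include hl0 in
/-- A linear form on `N0` which is a nonzero constant times the trivialisation. -/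
theorem exists_form0 (hM : M.IsLine) : ∃ (φ : Module.Dual R0 M.N0) (b : O), b ≠ 0 ∧
    ∀ n, algebraMap R0 R0' (φ n) = algebraMap R0 R0' (algebraMap O R0 b) * jLin0 h n := by
  have := hM.inv0
  have : Module.FinitePresentation R0 M.N0 := Module.finitePresentation_of_projective _ _
  obtain ⟨φ, ⟨_, b, hb, rfl⟩, hφ⟩ := Module.FinitePresentation.exists_lift_of_isLocalizedModule
    (Algebra.algebraMapSubmonoid R0 (nonZeroDivisors O)) (Algebra.linearMap R0 R0') (jLin0 h)
  refine ⟨φ, b, nonZeroDivisors.ne_zero hb, fun n => ?_⟩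
  have := LinearMap.congr_fun hφ n
  simp only [LinearMap.coe_comp, Function.comp_apply, Algebra.linearMap_apply] at this
  rw [this]
  show (algebraMap O R0 b) • jLin0 h n = _
  rw [Algebra.smul_def]

include hl1 in
/-- A linear form on `N1` which is a nonzero constant times the trivialisation. -/
theorem exists_form1 (hM : M.IsLine) : ∃ (φ : Module.Dual R1 M.N1) (b : O), b ≠ 0 ∧
    ∀ n, algebraMap R1 R1' (φ n) = algebraMap R1 R1' (algebraMap O R1 b) * jLin1 h n := by
  have := hM.inv1
  have : Module.FinitePresentation R1 M.N1 := Module.finitePresentation_of_projective _ _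
  obtain ⟨φ, ⟨_, b, hb, rfl⟩, hφ⟩ := Module.FinitePresentation.exists_lift_of_isLocalizedModule
    (Algebra.algebraMapSubmonoid R1 (nonZeroDivisors O)) (Algebra.linearMap R1 R1') (jLin1 h)
  refine ⟨φ, b, nonZeroDivisors.ne_zero hb, fun n => ?_⟩
  have := LinearMap.congr_fun hφ n
  simp only [LinearMap.coe_comp, Function.comp_apply, Algebra.linearMap_apply] at this
  rw [this]
  show (algebraMap O R1 b) • jLin1 h n = _
  rw [Algebra.smul_def]

include hc0 in
/-- The transpose of a form on `N0` proportional to the trivialisation is proportional to the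
trivialisation on the overlap. -/
theorem transpose0_eq (φ : Module.Dual R0 M.N0) (b : O)
    (hφ : ∀ n, algebraMap R0 R0' (φ n) = algebraMap R0 R0' (algebraMap O R0 b) * jLin0 h n)
    (y : M.N01) :
    algebraMap R01 R01' (transposeBC M.bc0 φ y) =
      algebraMap R01 R01' (algebraMap O R01 b) * jLin01 h y := by
  induction y using M.bc0.inductionOn with
  | zero => simp
  | tmul n =>
    rw [transposeBC_apply, jLin01_r0]
    have h0 := RingHom.congr_fun hc0 (φ n)
    have h0' := RingHom.congr_fun hc0 (algebraMap O R0 b)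
    simp only [RingHom.comp_apply] at h0 h0'
    rw [← h0, hφ n, map_mul, h0', ← IsScalarTower.algebraMap_apply O R0 R01]
  | smul r y hy =>
    rw [map_smul (transposeBC M.bc0 φ), map_smul (jLin01 h), smul_eq_mul, map_mul, hy,
      Algebra.smul_def]
    ring
  | add y₁ y₂ h₁ h₂ =>
    rw [map_add, map_add, map_add, h₁, h₂, mul_add]

include hc1 in
theorem transpose1_eq (φ : Module.Dual R1 M.N1) (b : O)
    (hφ : ∀ n, algebraMap R1 R1' (φ n) = algebraMap R1 R1' (algebraMap O R1 b) * jLin1 h n)
    (y : M.N01) :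
    algebraMap R01 R01' (transposeBC M.bc1 φ y) =
      algebraMap R01 R01' (algebraMap O R01 b) * jLin01 h y := by
  induction y using M.bc1.inductionOn with
  | zero => simp
  | tmul n =>
    rw [transposeBC_apply, jLin01_r1]
    have h1 := RingHom.congr_fun hc1 (φ n)
    have h1' := RingHom.congr_fun hc1 (algebraMap O R1 b)
    simp only [RingHom.comp_apply] at h1 h1'
    rw [← h1, hφ n, map_mul, h1', ← IsScalarTower.algebraMap_apply O R1 R01]
  | smul r y hy =>
    rw [map_smul (transposeBC M.bc1 φ), map_smul (jLin01 h), smul_eq_mul, map_mul, hy,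
      Algebra.smul_def]
    ring
  | add y₁ y₂ h₁ h₂ =>
    rw [map_add, map_add, map_add, h₁, h₂, mul_add]

include hc0 hc1 hl0 hl1 hl01 in
/-- A global section of `M^∨` which is a nonzero constant times the trivialisation. -/
theorem exists_cosection (hπ : Irreducible π) (hg : PiGood c π) (hM : M.IsLine) :
    ∃ (τ : (dual c M (isVB_of_isLine hM)).H0) (b : O), b ≠ 0 ∧
      ∀ n, algebraMap R0 R0' ((show Module.Dual R0 M.N0 from τ.1.1) n) =
        algebraMap R0 R0' (algebraMap O R0 b) * jLin0 h n := by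
  obtain ⟨φ0, b0, hb0, hφ0⟩ := exists_form0 h hl0 hM
  obtain ⟨φ1, b1, hb1, hφ1⟩ := exists_form1 h hl1 hM
  have e0 : ∀ n, algebraMap R0 R0' ((algebraMap O R0 b1 • φ0) n) =
      algebraMap R0 R0' (algebraMap O R0 (b1 * b0)) * jLin0 h n := fun n => by
    rw [LinearMap.smul_apply, smul_eq_mul, map_mul, hφ0 n, map_mul, map_mul, mul_assoc]
  have e1 : ∀ n, algebraMap R1 R1' ((algebraMap O R1 b0 • φ1) n) =
      algebraMap R1 R1' (algebraMap O R1 (b1 * b0)) * jLin1 h n := fun n => by
    rw [LinearMap.smul_apply, smul_eq_mul, map_mul, hφ1 n, map_mul, map_mul]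
    ring
  have hinj : Function.Injective (algebraMap R01 R01') :=
    IsLocalization.injective R01' (algebraMapSubmonoid_le_nonZeroDivisors hπ hg.reg01)
  have hcompat : (dual c M (isVB_of_isLine hM)).r0 (algebraMap O R0 b1 • φ0) =
      (dual c M (isVB_of_isLine hM)).r1 (algebraMap O R1 b0 • φ1) := by
    show transposeBC M.bc0 (algebraMap O R0 b1 • φ0) = transposeBC M.bc1 (algebraMap O R1 b0 • φ1)
    ext y
    apply hinj
    rw [transpose0_eq h hc0 _ _ e0 y, transpose1_eq h hc1 _ _ e1 y]
  exact ⟨⟨(algebraMap O R0 b1 • φ0, algebraMap O R1 b0 • φ1),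
    (mem_H0_iff (dual c M (isVB_of_isLine hM)) _).2 hcompat⟩, b1 * b0, mul_ne_zero hb1 hb0, e0⟩

include h hc0 hc1 hl0 hl1 hl01 in
/-- **A line on `X_O` with trivial generic fibre is trivial** (abstract form of `ExtInjective`). -/
theorem nonempty_iso_unit_of_liftData_unit (hπ : Irreducible π) (hg : PiGood c π)
    (hH0 : H0Const c) (hM : M.IsLine) :
    Nonempty (QC2.Iso (QC2.unit : QC2 O R0 R1 R01) M) := by
  obtain ⟨σ, a, ha, hσ⟩ := exists_section h hc0 hc1 hl0 hl1 hl01 hπ hg hM
  obtain ⟨τ, b, hb, hτ⟩ := exists_cosection h hc0 hc1 hl0 hl1 hl01 hπ hg hM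
  refine nonempty_iso_unit_of_pairing_ne_zero hπ hg hH0 hM σ τ ?_
  have hinj : Function.Injective (algebraMap R0 R0') :=
    IsLocalization.injective R0' (algebraMapSubmonoid_le_nonZeroDivisors hπ hg.reg0)
  have hp : pair0 c hM σ τ = algebraMap O R0 (b * a) := by
    apply hinj
    unfold pair0
    rw [hτ, hσ, ← map_mul, ← map_mul]
  rw [hp]
  intro h0
  exact mul_ne_zero hb ha (algebraMap_O_R0_eq_zero hπ hg h0)

end Main

end Generic

end Fermat.Agent.T1.Red68
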