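import Mathlib
import Fermat.Agent.T1.RedIface75
import Fermat.Agent.T1.Red68.GenericFibre

/-!
# T1A (S19), REDUCTION layer, brick R-c EXT: `ExtInjective`  (helper68)

`extInjective` : for a DVR `O` over `W` with fraction field `L`, if the two-chart ring
`c0.baseChange O` has good special fibre (`PiGood`: `π` regular on the three rings, prime on the
two charts, not a unit on the overlap) and `H⁰(O_{X_O}) = O` (`H0Const`), then
`Pic X_O → Pic X_L` is injective (`RedIface75.ExtInjective c0 O L`).
-/

set_option autoImplicit false
set_option linter.unusedSectionVars false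

universe u

open TensorProduct

namespace Fermat.Agent.T1.Red68

open Fermat.Agent.Jac Fermat.Agent.Jac.LineOps39 Fermat.Agent.Jac.JSmooth85Alg
open Fermat.Agent.Jac.JGroup85Pic Fermat.Agent.Jac.BaseChange75 Fermat.Agent.T1.RedIface75
open scoped Fermat.Agent.Jac.BaseChange75

variable {W B0 B1 B01 : Type u} [CommRing W] [CommRing B0] [CommRing B1] [CommRing B01]
  [Algebra W B0] [Algebra W B1] [Algebra W B01] [Algebra B0 B01] [Algebra B1 B01]
  [IsScalarTower W B0 B01] [IsScalarTower W B1 B01]
  (c0 : TwoChart W B0 B1 B01)
  (O : Type u) [CommRing O] [IsDomain O] [IsDiscreteValuationRing O] [Algebra W O]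
  (L : Type u) [Field L] [Algebra W L] [Algebra O L] [IsScalarTower W O L] [IsFractionRing O L]

/-- `L ⊗[W] B` is the localisation of `O ⊗[W] B` at the nonzero elements of `O`. -/
theorem isLocalization_tensor (B : Type u) [CommRing B] [Algebra W B] :
    IsLocalization (Algebra.algebraMapSubmonoid (O ⊗[W] B) (nonZeroDivisors O)) (L ⊗[W] B) := by
  have : IsScalarTower O L (L ⊗[W] B) := towerLeft' W O L B
  exact (Algebra.isLocalization_iff_isPushout (nonZeroDivisors O) L).2
    (Algebra.IsPushout.symm (isPushout_left W O L B))

/-- **`ExtInjective`**: a line on `X_O` with trivial generic fibre is trivial. -/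
theorem extInjective {π : O} (hπ : Irreducible π) (hg : PiGood (c0.baseChange O) π)
    (hH0 : H0Const (c0.baseChange O)) : ExtInjective c0 O L := by
  unfold ExtInjective
  rw [injective_iff_map_eq_one]
  intro y hy
  obtain ⟨M, hM, rfl⟩ := LinePic.exists_rep y
  have hy' : LinePic.bc (square_comm W O L B0 B01) (square_comm W O L B1 B01)
      (c0.baseChange O) (c0.baseChange L) (LinePic.mk (c0.baseChange O) M hM) =
      LinePic.mk (c0.baseChange L) QC2.unit isLine_unit := hy
  obtain ⟨h⟩ := LinePic.nonempty_liftData_of_bc_eq (square_comm W O L B0 B01)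
    (square_comm W O L B1 B01) (c0.baseChange O) (c0.baseChange L) hM isLine_unit hy'
  obtain ⟨e⟩ := nonempty_iso_unit_of_liftData_unit h (square_comm W O L B0 B01)
    (square_comm W O L B1 B01) (isLocalization_tensor O L B0) (isLocalization_tensor O L B1)
    (isLocalization_tensor O L B01) hπ hg hH0 hM
  rw [LinePic.one_def]
  exact LinePic.mk_eq_mk hM isLine_unit (isoSymm e)

end Fermat.Agent.T1.Red68
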