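import Mathlib
import Fermat.Agent.T1.Red68.ExtInj
import Fermat.Agent.T1.CoordInj23.OfCechData

/-!
# T1A (S19), REDUCTION layer, brick R-c EXT: `ExtInjective` from the model outputs (helper68)

* `piGood_of_isDomain` : `PiGood` when the three rings are domains (`π` regular is then automatic);
* `h0Const_of_cechData` : `H0Const (c0.baseChange R)` for every `W`-algebra `R` from helper70's
  `W`-level `CechData` (via helper23's `CoordInj23.h0Const_of_cechData`);
* `extInjective_of_cechData` : `ExtInjective c0 O L` from `CechData` + `PiGood`.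
-/

set_option autoImplicit false
set_option linter.unusedSectionVars false

universe u

open TensorProduct

namespace Fermat.Agent.T1.Red68

open Fermat.Agent.Jac Fermat.Agent.Jac.BaseChange75 Fermat.Agent.T1.RedIface75
open Fermat.Agent.T1.CechFormal70
open scoped Fermat.Agent.Jac.BaseChange75

section Domain

variable {A R0 R1 R01 : Type u} [CommRing A] [CommRing R0] [CommRing R1] [CommRing R01]
  [Algebra A R0] [Algebra A R1] [Algebra A R01] [Algebra R0 R01] [Algebra R1 R01]
  [IsScalarTower A R0 R01] [IsScalarTower A R1 R01]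

/-- `PiGood` for domains: `p` prime on the two charts, nonzero and not a unit on the overlap. -/
theorem piGood_of_isDomain [IsDomain R0] [IsDomain R1] [IsDomain R01]
    (c : TwoChart A R0 R1 R01) (p : A)
    (h0 : Prime (algebraMap A R0 p)) (h1 : Prime (algebraMap A R1 p))
    (hne01 : algebraMap A R01 p ≠ 0) (hu01 : ¬ IsUnit (algebraMap A R01 p)) : PiGood c p where
  reg0 := fun _ hx => (mul_eq_zero.1 hx).resolve_left h0.ne_zero
  reg1 := fun _ hx => (mul_eq_zero.1 hx).resolve_left h1.ne_zero
  reg01 := fun _ hx => (mul_eq_zero.1 hx).resolve_left hne01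
  prime0 := h0
  prime1 := h1
  notUnit01 := hu01

end Domain

variable {W B0 B1 B01 : Type u} [CommRing W] [CommRing B0] [CommRing B1] [CommRing B01]
  [Algebra W B0] [Algebra W B1] [Algebra W B01] [Algebra B0 B01] [Algebra B1 B01]
  [IsScalarTower W B0 B01] [IsScalarTower W B1 B01] {g : ℕ}

/-- `H⁰(O_{X_R}) = R` for every `W`-algebra `R`, from the `W`-level Čech datum. -/
theorem h0Const_of_cechData (c0 : TwoChart W B0 B1 B01) (D : CechData W B0 B1 B01 g)
    (hρ0 : ∀ x, D.ρ0 x = algebraMap B0 B01 x) (hρ1 : ∀ x, D.ρ1 x = algebraMap B1 B01 x)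
    (R : Type u) [CommRing R] [Algebra W R] : H0Const (c0.baseChange R) := by
  intro x0 x1 h
  obtain ⟨a, h0, h1⟩ := CoordInj23.h0Const_of_cechData D hρ0 hρ1 R x0 x1 h
  exact ⟨a, h0.symm, h1.symm⟩

/-- **`ExtInjective` from the outputs of G1 (Čech datum) and G2 (special fibre facts).** -/
theorem extInjective_of_cechData (c0 : TwoChart W B0 B1 B01) (D : CechData W B0 B1 B01 g)
    (hρ0 : ∀ x, D.ρ0 x = algebraMap B0 B01 x) (hρ1 : ∀ x, D.ρ1 x = algebraMap B1 B01 x)
    (O : Type u) [CommRing O] [IsDomain O] [IsDiscreteValuationRing O] [Algebra W O]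
    (L : Type u) [Field L] [Algebra W L] [Algebra O L] [IsScalarTower W O L] [IsFractionRing O L]
    {π : O} (hπ : Irreducible π) (hg : PiGood (c0.baseChange O) π) : ExtInjective c0 O L :=
  extInjective c0 O L hπ hg (h0Const_of_cechData c0 D hρ0 hρ1 O)

end Fermat.Agent.T1.Red68
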